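import Fermat.Agent.ECReduction.Frobenius
import Fermat.Agent.ECTorsion.Galois

/-!
# Reduction is bijective on torsion of order prime to `q`

At a prime of good reduction `q ∤ n` both the curve and its reduction have `n²` points killed by
`n`, so reduction is bijective on them.
-/

noncomputable section

open scoped WeierstrassCurve.Affine

namespace Fermat.Agent.ECReduction

open WeierstrassCurve WeierstrassCurve.Affine

variable (W : WeierstrassCurve ℤ) {A : ValuationSubring (AlgebraicClosure ℚ)} {q : ℕ}
  [Algebra (ZMod q) (IsLocalRing.ResidueField A)] (hA : A.LiesOverPrime q) (hq : q.Prime)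
  (hΔ : ¬ (q : ℤ) ∣ W.Δ)

open scoped Classical in
include hA hq hΔ in
/-- The reduced curve has `n²` points killed by `n` when `q ∤ n`. -/
theorem card_torsionBy_reduced {n : ℕ} (hn : ¬ q ∣ n) :
    Nat.card (Submodule.torsionBy ℤ
      ((W.reductionMod q)⁄(IsLocalRing.ResidueField A)).Point n) = n ^ 2 := by
  have := GaloisBasics.residueField_isAlgClosed A
  refine ECTorsion.card_torsionBy_baseChange (K := IsLocalRing.ResidueField A) (W.reductionMod q) ?_
    (natCast_residue_ne_zero hA hq hn)
  rw [← WeierstrassCurve.map_Δ]
  exact reductionMod_Δ_ne_zero W hA hq hΔ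

open scoped Classical in
/-- At a prime of good reduction `q ∤ n`, reduction is bijective on `n`-torsion. -/
theorem redTorsion_bijective_of_not_dvd {n : ℕ} (hn : ¬ q ∣ n) :
    Function.Bijective (redTorsion W hA hq hΔ n) := by
  have hn0 : n ≠ 0 := fun h => hn (h ▸ dvd_zero q)
  refine redTorsion_bijective W hA hq hΔ hn (pow_ne_zero 2 hn0) ?_
    (card_torsionBy_reduced W hA hq hΔ hn)
  convert! ECTorsion.card_torsionBy_int W (fun h => hΔ (h ▸ dvd_zero _)) hn0

end Fermat.Agent.ECReduction
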