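import Fermat.Agent.ECReduction.Kernel
import Mathlib.FieldTheory.IsAlgClosed.Basic

/-!
# The reduction homomorphism on points

`PointRed φ P Q` says that the point `P` of `E` reduces to the (nonsingular) point `Q` of the
reduced curve `F`.  The points having such a reduction form the subgroup `goodSubgroup` (the
"`E₀`" of Silverman) and the reduction `redHom` is a homomorphism on it with kernel `InKer`.
No assumption is made on the reduction type.
-/

namespace Fermat.Agent.ECReduction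

open WeierstrassCurve WeierstrassCurve.Affine

variable {K k : Type*} [Field K] [Field k] {A : ValuationSubring K}

/-- `P` reduces to the nonsingular point `Q`. -/
def PointRed (φ : A →+* k) {E : WeierstrassCurve.Affine K} {F : WeierstrassCurve.Affine k} :
    E.Point → F.Point → Prop
  | .zero, Q => Q = 0
  | .some x y _, Q => (x ∉ A ∧ Q = 0) ∨
      ∃ (a b : k) (h : F.Nonsingular a b), Red φ x a ∧ Red φ y b ∧ Q = .some a b h

variable {φ : A →+* k} {E : WeierstrassCurve.Affine K} {F : WeierstrassCurve.Affine k}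

/-- Zero reduces to zero. -/
lemma pointRed_zero : PointRed φ (0 : E.Point) (0 : F.Point) := rfl

/-- An integral point reduces coordinatewise. -/
lemma pointRed_some {x y : K} {a b : k} (h : E.Nonsingular x y) (h' : F.Nonsingular a b)
    (hx : Red φ x a) (hy : Red φ y b) : PointRed φ (Point.some x y h) (Point.some a b h') :=
  Or.inr ⟨a, b, h', hx, hy, rfl⟩

/-- The reduction of a point is unique. -/
lemma PointRed.unique {P : E.Point} {Q Q' : F.Point} (h : PointRed φ P Q)
    (h' : PointRed φ P Q') : Q = Q' := by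
  rcases P with _ | ⟨x, y, hP⟩
  · exact h.trans h'.symm
  rcases h with ⟨hx, rfl⟩ | ⟨a, b, hn, hx, hy, rfl⟩ <;>
    rcases h' with ⟨hx', rfl⟩ | ⟨a', b', hn', hx', hy', rfl⟩
  · rfl
  · exact absurd hx'.mem hx
  · exact absurd hx.mem hx'
  · cases hx.unique hx'
    cases hy.unique hy'
    rfl

/-- The points reducing to zero form the kernel of reduction. -/
lemma pointRed_zero_iff {P : E.Point} : PointRed φ P (0 : F.Point) ↔ InKer A P := by
  rcases P with _ | ⟨x, y, hP⟩
  · exact iff_of_true rfl trivial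
  constructor
  · rintro (⟨hx, -⟩ | ⟨a, b, hn, -, -, he⟩)
    · exact hx
    · exact absurd he.symm (Point.some_ne_zero hn)
  · exact fun hx => Or.inl ⟨hx, rfl⟩

/-- A curve with a reduction has integral coefficients. -/
lemma CurveRed.integralCoeffs (hEF : CurveRed φ E F) : IntegralCoeffs A E :=
  ⟨(A.valuation_le_one_iff _).mpr hEF.a₁.mem, (A.valuation_le_one_iff _).mpr hEF.a₂.mem,
    (A.valuation_le_one_iff _).mpr hEF.a₃.mem, (A.valuation_le_one_iff _).mpr hEF.a₄.mem,
    (A.valuation_le_one_iff _).mpr hEF.a₆.mem⟩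

/-- Reduction commutes with negation. -/
lemma PointRed.neg (hEF : CurveRed φ E F) {P : E.Point} {Q : F.Point} (h : PointRed φ P Q) :
    PointRed φ (-P) (-Q) := by
  rcases P with _ | ⟨x, y, hP⟩
  · cases h
    exact rfl
  rcases h with ⟨hx, rfl⟩ | ⟨a, b, hn, hx, hy, rfl⟩
  · exact Or.inl ⟨hx, rfl⟩
  · exact Or.inr ⟨_, _, _, hx, hEF.negY hx hy, rfl⟩

variable [IsLocalHom φ] [DecidableEq K] [DecidableEq k]

/-- Chord through two integral points with non-opposite reductions: the slope reduces. -/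
lemma red_slope (hEF : CurveRed φ E F) {x₁ x₂ y₁ y₂ : K} {a₁ a₂ b₁ b₂ : k}
    (e₁ : E.Equation x₁ y₁) (e₂ : E.Equation x₂ y₂)
    (hx₁ : Red φ x₁ a₁) (hy₁ : Red φ y₁ b₁) (hx₂ : Red φ x₂ a₂) (hy₂ : Red φ y₂ b₂)
    (hab : ¬(a₁ = a₂ ∧ b₁ = F.negY a₂ b₂)) :
    Red φ (E.slope x₁ x₂ y₁ y₂) (F.slope a₁ a₂ b₁ b₂) := by
  have hxy : ¬(x₁ = x₂ ∧ y₁ = E.negY x₂ y₂) := fun h => hab
    ⟨hx₁.unique (hx₂.congr_left h.1.symm), hy₁.unique ((hEF.negY hx₂ hy₂).congr_left h.2.symm)⟩
  by_cases ha : a₁ = a₂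
  · have hb' : b₁ - F.negY a₂ b₂ ≠ 0 := sub_ne_zero.mpr fun h => hab ⟨ha, h⟩
    have hb : b₁ = b₂ := Y_eq_of_Y_ne (hEF.equation e₁ hx₁ hy₁) (hEF.equation e₂ hx₂ hy₂) ha
      fun h => hab ⟨ha, h⟩
    have hD := hy₁.sub (hEF.negY hx₂ hy₂)
    have hN := ((((hx₁.pow 2).add (hx₁.mul hx₂)).add (hx₂.pow 2)).add
      (hEF.a₂.mul (hx₁.add hx₂))).add hEF.a₄ |>.sub (hEF.a₁.mul hy₁)
    have h := hN.div hD hb'
    rw [← slope_mul_Y_sub e₁ e₂ hxy, mul_div_cancel_right₀ _ (hD.ne_zero hb')] at h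
    refine h.congr_right ?_
    subst ha hb
    rw [slope_of_Y_ne rfl fun h => hab ⟨rfl, h⟩]
    ring
  · rw [slope_of_X_ne fun h => ha (hx₁.unique (hx₂.congr_left h.symm)), slope_of_X_ne ha]
    exact (hy₁.sub hy₂).div (hx₁.sub hx₂) (sub_ne_zero.mpr ha)

/-- Addition of two integral points with nonsingular reductions. -/
lemma pointRed_add_some (hEF : CurveRed φ E F) {x₁ x₂ y₁ y₂ : K} {a₁ a₂ b₁ b₂ : k}
    (h₁ : E.Nonsingular x₁ y₁) (h₂ : E.Nonsingular x₂ y₂) (n₁ : F.Nonsingular a₁ b₁)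
    (n₂ : F.Nonsingular a₂ b₂)
    (hx₁ : Red φ x₁ a₁) (hy₁ : Red φ y₁ b₁) (hx₂ : Red φ x₂ a₂) (hy₂ : Red φ y₂ b₂) :
    PointRed φ (Point.some x₁ y₁ h₁ + Point.some x₂ y₂ h₂)
      (Point.some a₁ b₁ n₁ + Point.some a₂ b₂ n₂) := by
  by_cases hab : a₁ = a₂ ∧ b₁ = F.negY a₂ b₂
  · rw [Point.add_of_Y_eq hab.1 hab.2, pointRed_zero_iff]
    by_cases hxy : x₁ = x₂ ∧ y₁ = E.negY x₂ y₂
    · rw [Point.add_of_Y_eq hxy.1 hxy.2]
      exact inKer_zero
    rw [Point.add_some hxy]
    change _ ∉ A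
    intro hx₃
    have hl : E.slope x₁ x₂ y₁ y₂ ∈ A := by
      refine Red.mem_of_monic_quadratic φ hEF.a₁.mem
        (A.add_mem _ _ (A.add_mem _ _ (A.add_mem _ _ hx₃ hEF.a₂.mem) hx₁.mem) hx₂.mem) ?_
      rw [addX]
      ring
    obtain ⟨m, hm⟩ := Red.exists_of_mem φ hl
    obtain ⟨rfl, hb⟩ := hab
    have hbb : b₁ = b₂ := by
      have := (hm.mul (hx₁.sub hx₂)).unique
        ((hy₁.sub hy₂).congr_left (slope_mul_X_sub h₁.1 h₂.1 hxy).symm)
      rw [sub_self, mul_zero] at this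
      exact sub_eq_zero.mp this.symm
    subst hbb
    have hN := ((((hx₁.pow 2).add (hx₁.mul hx₂)).add (hx₂.pow 2)).add
      (hEF.a₂.mul (hx₁.add hx₂))).add hEF.a₄ |>.sub (hEF.a₁.mul hy₁)
    have h0 := ((hm.mul (hy₁.sub (hEF.negY hx₂ hy₂))).congr_left
      (slope_mul_Y_sub h₁.1 h₂.1 hxy)).unique hN
    have hneg : b₁ - F.negY a₁ b₁ = 0 := sub_eq_zero.mpr hb
    rw [hneg, mul_zero] at h0
    have hns := ((nonsingular_iff' a₁ b₁).mp n₁).2
    rcases hns with hne | hne
    · exact hne (by linear_combination h0)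
    · exact hne (by rw [negY] at hneg; linear_combination hneg)
  · have hxy : ¬(x₁ = x₂ ∧ y₁ = E.negY x₂ y₂) := fun h => hab
      ⟨hx₁.unique (hx₂.congr_left h.1.symm), hy₁.unique ((hEF.negY hx₂ hy₂).congr_left h.2.symm)⟩
    rw [Point.add_some hxy, Point.add_some hab]
    have hl := red_slope hEF h₁.1 h₂.1 hx₁ hy₁ hx₂ hy₂ hab
    exact pointRed_some _ _ (hEF.addX hx₁ hx₂ hl) (hEF.addY hx₁ hx₂ hy₁ hl)

/-- A kernel point plus a point with nonsingular reduction. -/
lemma pointRed_ker_add (hEF : CurveRed φ E F) {P : E.Point} (hP : InKer A P) {x y : K} {a b : k}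
    (h : E.Nonsingular x y) (n : F.Nonsingular a b) (hx : Red φ x a) (hy : Red φ y b) :
    PointRed φ (P + Point.some x y h) (Point.some a b n) := by
  have hE := hEF.integralCoeffs
  generalize hR : P + Point.some x y h = R
  have hnk : ¬ InKer A R := fun hk => by
    have := hE.inKer_add hk (inKer_neg hP)
    rw [← hR, add_neg_cancel_comm] at this
    exact this hx.mem
  rcases R with _ | ⟨x₃, y₃, h₃⟩
  · exact absurd trivial hnk
  change ¬ x₃ ∉ A at hnk
  rw [not_not] at hnk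
  obtain ⟨a₃, hx₃⟩ := Red.exists_of_mem φ hnk
  obtain ⟨b₃, hy₃⟩ := Red.exists_of_mem φ (hEF.mem_Y h₃.1 hnk)
  have hPR : Point.some x₃ y₃ h₃ + -Point.some x y h = P := by
    rw [← hR, add_neg_cancel_right]
  rw [Point.neg_some] at hPR
  by_cases ha : a₃ = a
  · have hn₃ : F.Nonsingular a₃ b₃ := by
      rcases Y_eq_of_X_eq (hEF.equation h₃.1 hx₃ hy₃) n.1 ha with hb | hb
      · rw [ha, hb]; exact n
      · rw [ha, hb]; exact (nonsingular_neg ..).mpr n
    have := pointRed_add_some hEF h₃ ((nonsingular_neg ..).mpr h) hn₃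
      ((nonsingular_neg ..).mpr n) hx₃ hy₃ hx (hEF.negY hx hy)
    rw [hPR] at this
    have h0 := this.unique (pointRed_zero_iff.mpr hP)
    rw [← Point.neg_some (h := n), ← sub_eq_add_neg, sub_eq_zero] at h0
    obtain ⟨rfl, rfl⟩ := Point.some.inj h0
    exact pointRed_some h₃ n hx₃ hy₃
  · exfalso
    have hne : x₃ ≠ x := fun e => ha (hx₃.unique (hx.congr_left e.symm))
    rw [Point.add_of_X_ne hne] at hPR
    subst hPR
    have hl := (hy₃.sub (hEF.negY hx hy)).div (hx₃.sub hx) (sub_ne_zero.mpr ha)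
    rw [← slope_of_X_ne (W := E) hne] at hl
    exact hP (hEF.addX hx₃ hx hl).mem

/-- The reduction relation is additive. -/
theorem PointRed.add (hEF : CurveRed φ E F) {P P' : E.Point} {Q Q' : F.Point}
    (h : PointRed φ P Q) (h' : PointRed φ P' Q') : PointRed φ (P + P') (Q + Q') := by
  rcases Q with _ | ⟨a, b, n⟩
  · rw [← Point.zero_def] at h ⊢
    rw [zero_add]
    rcases Q' with _ | ⟨a', b', n'⟩
    · exact pointRed_zero_iff.mpr
        (hEF.integralCoeffs.inKer_add (pointRed_zero_iff.mp h) (pointRed_zero_iff.mp h'))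
    · rcases P' with _ | ⟨x', y', hP'⟩
      · exact absurd h' (Point.some_ne_zero n')
      rcases h' with ⟨-, he⟩ | ⟨_, _, _, hx, hy, he⟩
      · exact absurd he (Point.some_ne_zero n')
      obtain ⟨rfl, rfl⟩ := Point.some.inj he
      exact pointRed_ker_add hEF (pointRed_zero_iff.mp h) hP' n' hx hy
  · rcases P with _ | ⟨x, y, hP⟩
    · exact absurd h (Point.some_ne_zero n)
    rcases h with ⟨-, he⟩ | ⟨_, _, _, hx, hy, he⟩
    · exact absurd he (Point.some_ne_zero n)
    obtain ⟨rfl, rfl⟩ := Point.some.inj he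
    rcases Q' with _ | ⟨a', b', n'⟩
    · rw [← Point.zero_def] at h' ⊢
      rw [add_zero, add_comm]
      exact pointRed_ker_add hEF (pointRed_zero_iff.mp h') hP n hx hy
    · rcases P' with _ | ⟨x', y', hP'⟩
      · exact absurd h' (Point.some_ne_zero n')
      rcases h' with ⟨-, he⟩ | ⟨_, _, _, hx', hy', he⟩
      · exact absurd he (Point.some_ne_zero n')
      obtain ⟨rfl, rfl⟩ := Point.some.inj he
      exact pointRed_add_some hEF hP hP' n n' hx hy hx' hy'

section Hom

variable (hEF : CurveRed φ E F)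

/-- The points with nonsingular reduction. -/
def goodSubgroup : AddSubgroup E.Point where
  carrier := {P | ∃ Q : F.Point, PointRed φ P Q}
  zero_mem' := ⟨0, pointRed_zero⟩
  add_mem' := by
    rintro P P' ⟨Q, h⟩ ⟨Q', h'⟩
    exact ⟨Q + Q', h.add hEF h'⟩
  neg_mem' := by
    rintro P ⟨Q, h⟩
    exact ⟨-Q, h.neg hEF⟩

/-- Membership in the subgroup of points with good reduction. -/
lemma mem_goodSubgroup {P : E.Point} :
    P ∈ goodSubgroup hEF ↔ ∃ Q : F.Point, PointRed φ P Q := Iff.rfl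

/-- The reduction homomorphism on the points with nonsingular reduction. -/
noncomputable def redHom : goodSubgroup hEF →+ F.Point where
  toFun P := P.2.choose
  map_zero' := (0 : goodSubgroup hEF).2.choose_spec.unique pointRed_zero
  map_add' P P' := (P + P').2.choose_spec.unique (P.2.choose_spec.add hEF P'.2.choose_spec)

lemma redHom_spec (P : goodSubgroup hEF) : PointRed φ (P : E.Point) (redHom hEF P) :=
  P.2.choose_spec

omit [DecidableEq K] [DecidableEq k] in
/-- Under good reduction every point has nonsingular reduction. -/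
lemma exists_pointRed (hEF : CurveRed φ E F) (hΔ : F.Δ ≠ 0) (P : E.Point) :
    ∃ Q : F.Point, PointRed φ P Q := by
  rcases P with _ | ⟨x, y, hP⟩
  · exact ⟨0, rfl⟩
  by_cases hx : x ∈ A
  · have hy := hEF.mem_Y hP.1 hx
    exact ⟨Point.some _ _ ((equation_iff_nonsingular_of_Δ_ne_zero hΔ).mp
      (hEF.equation hP.1 (Red.of_mem φ hx) (Red.of_mem φ hy))),
      pointRed_some _ _ (Red.of_mem φ hx) (Red.of_mem φ hy)⟩
  · exact ⟨0, Or.inl ⟨hx, rfl⟩⟩

/-- Reduction on all of `E` in the case of good reduction. -/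
noncomputable def redHomOfGood (hΔ : F.Δ ≠ 0) : E.Point →+ F.Point :=
  (redHom hEF).comp
    ((AddMonoidHom.id E.Point).codRestrict (goodSubgroup hEF)
      fun P => exists_pointRed hEF hΔ P)

/-- The reduction map computes the reduction. -/
lemma redHomOfGood_spec (hΔ : F.Δ ≠ 0) (P : E.Point) :
    PointRed φ P (redHomOfGood hEF hΔ P) :=
  redHom_spec hEF ⟨P, exists_pointRed hEF hΔ P⟩

omit [DecidableEq K] [DecidableEq k] in
/-- Over an algebraically closed field every nonsingular point of the reduced curve lifts. -/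
lemma exists_lift [IsAlgClosed K] (hEF : CurveRed φ E F) (hφ : Function.Surjective φ)
    (Q : F.Point) : ∃ P : E.Point, PointRed φ P Q := by
  rcases Q with _ | ⟨a, b, n⟩
  · exact ⟨0, rfl⟩
  obtain ⟨⟨x, hx⟩, rfl⟩ := hφ a
  obtain ⟨y, hy⟩ : ∃ y : K,
      y ^ 2 + (E.a₁ * x + E.a₃) * y = x ^ 3 + E.a₂ * x ^ 2 + E.a₄ * x + E.a₆ := by
    open Polynomial in
    obtain ⟨y, hy⟩ := IsAlgClosed.exists_root
      (C 1 * X ^ 2 + C (E.a₁ * x + E.a₃) * X +
        C (-(x ^ 3 + E.a₂ * x ^ 2 + E.a₄ * x + E.a₆)))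
      (by rw [degree_quadratic one_ne_zero]; decide)
    refine ⟨y, ?_⟩
    simp only [IsRoot.def, eval_add, eval_mul, eval_C, eval_pow, eval_X] at hy
    linear_combination hy
  have he : E.Equation x y := by
    rw [equation_iff]
    linear_combination hy
  obtain ⟨b', hb'⟩ := Red.exists_of_mem φ (hEF.mem_Y he hx)
  have hx' : Red φ x (φ ⟨x, hx⟩) := Red.of_mem φ hx
  rcases Y_eq_of_X_eq (hEF.equation he hx' hb') n.1 rfl with hbb | hbb
  · subst hbb
    exact ⟨Point.some x y (hEF.nonsingular he hx' hb' n), pointRed_some _ _ hx' hb'⟩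
  · have hb'' : Red φ (E.negY x y) b :=
      (hEF.negY hx' hb').congr_right (by rw [hbb, negY_negY])
    exact ⟨Point.some x _ (hEF.nonsingular ((equation_neg x y).mpr he) hx' hb'' n),
      pointRed_some _ _ hx' hb''⟩

end Hom

/-- Points killed by `n` with the same reduction are equal, for `n` invertible in `k`. -/
theorem PointRed.eq_of_nsmul_eq_zero (hEF : CurveRed φ E F) {n : ℕ} (hn : (n : k) ≠ 0)
    {P P' : E.Point} {Q : F.Point} (h : PointRed φ P Q) (h' : PointRed φ P' Q)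
    (hP : n • P = 0) (hP' : n • P' = 0) : P = P' := by
  have hk : InKer A (P - P') := by
    have := h.add hEF (h'.neg hEF)
    rw [add_neg_cancel, ← sub_eq_add_neg] at this
    exact pointRed_zero_iff.mp this
  exact sub_eq_zero.mp (hEF.integralCoeffs.eq_zero_of_nsmul_eq_zero hk
    ((Red.natCast φ n).valuation_eq_one hn) (by rw [nsmul_sub, hP, hP', sub_zero]))

end Fermat.Agent.ECReduction
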