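import Fermat.Agent.ECReduction.Hom
import Fermat.Agent.GaloisBasics.Galois
import Fermat.Prelude.Def_EllipticCurve_ZeroComponentAt
import Fermat.Prelude.Def_FreyPackage_DetCyclotomic
import Fermat.Prelude.Def_FLTPrelim_Modularity
import Mathlib.Algebra.Module.ZMod
import Mathlib.Algebra.Algebra.ZMod

/-!
# Reduction and the Galois action

For `W` over `ℤ` and a valuation subring `A` of `AlgebraicClosure ℚ` over `q`, the reduction
relation commutes with the decomposition group, so that inertia fixes torsion of order prime to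
`q` having nonsingular reduction, and a Frobenius element acts as the `q`-power map on reductions.
-/

noncomputable section

open scoped WeierstrassCurve.Affine

namespace Fermat.Agent.ECReduction

open WeierstrassCurve WeierstrassCurve.Affine

section Generic

variable {R S K R₀ k : Type*} [CommRing R] [CommRing S] [Field K] [Field k] [CommRing R₀]
  [Algebra R S] [Algebra R K] [Algebra S K] [IsScalarTower R S K] [Algebra R₀ k]
  {A : ValuationSubring K} {φ : A →+* k}
  {W' : WeierstrassCurve.Affine R} {W₀ : WeierstrassCurve.Affine R₀}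
  [DecidableEq K] [DecidableEq k]

/-- Equivariance of the reduction relation. -/
theorem PointRed.map (f : K →ₐ[S] K) (ψ : k →ₐ[R₀] k) (hA : ∀ x, f x ∈ A → x ∈ A)
    (hf : ∀ x a, Red φ x a → Red φ (f x) (ψ a)) {P : (W'⁄K).Point} {Q : (W₀⁄k).Point}
    (h : PointRed φ P Q) : PointRed φ (Point.map f P) (Point.map ψ Q) := by
  rcases P with _ | ⟨x, y, hP⟩
  · cases h
    exact rfl
  rcases h with ⟨hx, rfl⟩ | ⟨a, b, hn, hx, hy, rfl⟩
  · exact Or.inl ⟨fun hfx => hx (hA x hfx), rfl⟩
  · exact Or.inr ⟨ψ a, ψ b, _, hf _ _ hx, hf _ _ hy, rfl⟩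

end Generic

section Rational

variable (W : WeierstrassCurve ℤ) {A : ValuationSubring (AlgebraicClosure ℚ)} {q : ℕ}

local notation "Qb" => AlgebraicClosure ℚ
local notation "EQ" => ((W.map (Int.castRingHom ℚ))⁄(AlgebraicClosure ℚ))

/-- The reduction of `W` modulo the maximal ideal of `A`. -/
abbrev redCurve (A : ValuationSubring (AlgebraicClosure ℚ)) :
    WeierstrassCurve.Affine (IsLocalRing.ResidueField A) :=
  W.map (Int.castRingHom (IsLocalRing.ResidueField A))

/-- Reduction modulo the maximal ideal is the residue map. -/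
lemma red_residue_iff {x : Qb} {a : IsLocalRing.ResidueField A} :
    Red (IsLocalRing.residue A) x a ↔ ∃ hx : x ∈ A, IsLocalRing.residue A ⟨x, hx⟩ = a :=
  Iff.rfl

/-- `W` reduces to its reduction at any valuation subring. -/
lemma curveRed (A : ValuationSubring (AlgebraicClosure ℚ)) :
    CurveRed (IsLocalRing.residue A) EQ (redCurve W A) where
  a₁ := (Red.intCast _ W.a₁).congr_left (map_intCast (algebraMap ℚ Qb) _).symm
  a₂ := (Red.intCast _ W.a₂).congr_left (map_intCast (algebraMap ℚ Qb) _).symm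
  a₃ := (Red.intCast _ W.a₃).congr_left (map_intCast (algebraMap ℚ Qb) _).symm
  a₄ := (Red.intCast _ W.a₄).congr_left (map_intCast (algebraMap ℚ Qb) _).symm
  a₆ := (Red.intCast _ W.a₆).congr_left (map_intCast (algebraMap ℚ Qb) _).symm

/-- The base change of the reduction modulo `q` is the reduced curve. -/
lemma reductionMod_baseChange [Algebra (ZMod q) (IsLocalRing.ResidueField A)] :
    (W.reductionMod q)⁄(IsLocalRing.ResidueField A) = redCurve W A := by
  rw [WeierstrassCurve.Affine.baseChange, WeierstrassCurve.baseChange, reductionMod,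
    WeierstrassCurve.map_map]
  exact congrArg W.map (RingHom.ext_int _ _)

/-- The curve reduces to its reduction modulo `q`. -/
lemma curveRed_mod [Algebra (ZMod q) (IsLocalRing.ResidueField A)] :
    CurveRed (IsLocalRing.residue A) EQ ((W.reductionMod q)⁄(IsLocalRing.ResidueField A)) :=
  by rw [reductionMod_baseChange W]; exact curveRed W A

/-- An integer vanishes in the residue field exactly when `q` divides it. -/
lemma intCast_residue_eq_zero_iff (hA : A.LiesOverPrime q) (hq : q.Prime) (n : ℤ) :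
    (n : IsLocalRing.ResidueField A) = 0 ↔ (q : ℤ) ∣ n :=
  haveI := GaloisBasics.residueField_charP hA hq
  CharP.intCast_eq_zero_iff _ q n

/-- A natural number prime to `q` is nonzero in the residue field. -/
lemma natCast_residue_ne_zero (hA : A.LiesOverPrime q) (hq : q.Prime) {n : ℕ} (hn : ¬ q ∣ n) :
    (n : IsLocalRing.ResidueField A) ≠ 0 := by
  have := GaloisBasics.residueField_charP hA hq
  rwa [Ne, CharP.cast_eq_zero_iff _ q]

/-- The residue field as an algebra over `ZMod q`. -/
noncomputable abbrev residueAlgebra (hA : A.LiesOverPrime q) (hq : q.Prime) :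
    Algebra (ZMod q) (IsLocalRing.ResidueField A) :=
  haveI := GaloisBasics.residueField_charP hA hq
  ZMod.algebra _ q

/-- Good reduction: the reduced discriminant is nonzero. -/
lemma redCurve_Δ_ne_zero (hA : A.LiesOverPrime q) (hq : q.Prime) (hΔ : ¬ (q : ℤ) ∣ W.Δ) :
    (redCurve W A).Δ ≠ 0 := by
  rw [WeierstrassCurve.map_Δ, eq_intCast]
  exact (intCast_residue_eq_zero_iff hA hq _).not.mpr hΔ

/-- Good reduction: the discriminant modulo `q` is nonzero. -/
lemma reductionMod_Δ_ne_zero [Algebra (ZMod q) (IsLocalRing.ResidueField A)]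
    (hA : A.LiesOverPrime q) (hq : q.Prime) (hΔ : ¬ (q : ℤ) ∣ W.Δ) :
    ((W.reductionMod q)⁄(IsLocalRing.ResidueField A)).Δ ≠ 0 := by
  rw [reductionMod_baseChange W]
  exact redCurve_Δ_ne_zero W hA hq hΔ

open scoped Classical in
/-- `InZeroComponentAt` says exactly that the point has a nonsingular reduction. -/
theorem inZeroComponentAt_iff (P : (EQ).Point) :
    W.InZeroComponentAt A P ↔ P ∈ goodSubgroup (curveRed W A) := by
  rw [mem_goodSubgroup, InZeroComponentAt]
  constructor
  · rintro (rfl | ⟨x, y, h, rfl, hx | ⟨hx, hy, hn⟩⟩)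
    · exact ⟨0, pointRed_zero⟩
    · exact ⟨0, Or.inl ⟨hx, rfl⟩⟩
    · exact ⟨_, pointRed_some h hn ⟨hx, rfl⟩ ⟨hy, rfl⟩⟩
  · rcases P with _ | ⟨x, y, h⟩
    · exact fun _ => Or.inl rfl
    · rintro ⟨Q, ⟨hx, -⟩ | ⟨a, b, hn, ⟨hx, rfl⟩, ⟨hy, rfl⟩, -⟩⟩
      · exact Or.inr ⟨x, y, h, rfl, Or.inl hx⟩
      · exact Or.inr ⟨x, y, h, rfl, Or.inr ⟨hx, hy, hn⟩⟩

variable {σ : AlgebraicClosure ℚ ≃ₐ[ℚ] AlgebraicClosure ℚ}

/-- The automorphism of the residue field induced by an element of the decomposition group,
in relational form. -/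
lemma red_apply (hσ : σ ∈ A.decompositionSubgroup ℚ) {x : Qb}
    {a : IsLocalRing.ResidueField A} (h : Red (IsLocalRing.residue A) x a) :
    Red (IsLocalRing.residue A) (σ x) ((⟨σ, hσ⟩ : A.decompositionSubgroup ℚ) • a) := by
  obtain ⟨hx, rfl⟩ := h
  refine ⟨(GaloisBasics.apply_mem_iff hσ x).mpr hx, ?_⟩
  rw [← IsLocalRing.ResidueField.residue_smul]
  rfl

open scoped Classical in
/-- Inertia preserves reductions. -/
theorem PointRed.smul_of_mem_inertia (hσ : σ ∈ A.inertiaSubgroupIn ℚ)
    {F : WeierstrassCurve.Affine (IsLocalRing.ResidueField A)} {P : (EQ).Point} {Q : F.Point}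
    (h : PointRed (IsLocalRing.residue A) P Q) :
    PointRed (IsLocalRing.residue A) (σ • P) Q := by
  obtain ⟨hσ', hfix⟩ := GaloisBasics.mem_inertiaSubgroupIn_iff_smul.mp hσ
  rcases P with _ | ⟨x, y, hP⟩
  · exact h
  rw [Point.algEquiv_smul_def, Point.map_some]
  rcases h with ⟨hx, rfl⟩ | ⟨a, b, hn, hx, hy, rfl⟩
  · exact Or.inl ⟨fun hfx => hx ((GaloisBasics.apply_mem_iff hσ' x).mp hfx), rfl⟩
  · exact Or.inr ⟨a, b, hn, (red_apply hσ' hx).congr_right (hfix a),
      (red_apply hσ' hy).congr_right (hfix b), rfl⟩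

open scoped Classical in
/-- Inertia at `q` fixes the points killed by an integer prime to `q` whose reduction is
nonsingular. -/
theorem smul_eq_of_inZeroComponentAt (hA : A.LiesOverPrime q) (hq : q.Prime) {n : ℕ}
    (hn : ¬ q ∣ n) (hσ : σ ∈ A.inertiaSubgroupIn ℚ) {P : (EQ).Point} (hP : n • P = 0)
    (h0 : W.InZeroComponentAt A P) : σ • P = P := by
  obtain ⟨Q, hQ⟩ := (inZeroComponentAt_iff W P).mp h0
  exact (hQ.smul_of_mem_inertia W hσ).eq_of_nsmul_eq_zero (curveRed W A)
    (natCast_residue_ne_zero hA hq hn) hQ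
    (by rw [smul_comm n σ P, hP, smul_zero]) hP

open scoped Classical in
/-- At a prime of good reduction every point lies in the zero component. -/
lemma inZeroComponentAt_of_good (hA : A.LiesOverPrime q) (hq : q.Prime)
    (hΔ : ¬ (q : ℤ) ∣ W.Δ) (P : (EQ).Point) : W.InZeroComponentAt A P :=
  (inZeroComponentAt_iff W P).mpr
    (exists_pointRed (curveRed W A) (redCurve_Δ_ne_zero W hA hq hΔ) P)

/-- At a prime of good reduction not dividing `n`, the `n`-torsion is unramified. -/
theorem galoisRepUnramifiedAt_of_good {n : ℕ} (hq : q.Prime) (hn : ¬ q ∣ n)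
    (hΔ : ¬ (q : ℤ) ∣ W.Δ) {E₀ : WeierstrassCurve ℚ} (hE : W.map (Int.castRingHom ℚ) = E₀) :
    Point.GaloisRepUnramifiedAt (K := AlgebraicClosure ℚ) ℚ E₀ n q := by
  subst hE
  intro A hA σ hσ x
  refine Subtype.ext (smul_eq_of_inZeroComponentAt W hA hq hn hσ ?_
    (inZeroComponentAt_of_good W hA hq hΔ _))
  rw [← natCast_zsmul]
  exact (Submodule.mem_torsionBy_iff _ _).mp x.2

section Good

variable [Algebra (ZMod q) (IsLocalRing.ResidueField A)] (hA : A.LiesOverPrime q)
  (hq : q.Prime) (hΔ : ¬ (q : ℤ) ∣ W.Δ)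

local notation "κ" => IsLocalRing.ResidueField A

open scoped Classical in
/-- Reduction modulo a place of good reduction. -/
noncomputable def red : (EQ).Point →+ ((W.reductionMod q)⁄κ).Point :=
  redHomOfGood (curveRed_mod W) (reductionMod_Δ_ne_zero W hA hq hΔ)

open scoped Classical in
lemma red_spec (P : (EQ).Point) :
    PointRed (IsLocalRing.residue A) P (red W hA hq hΔ P) :=
  redHomOfGood_spec _ _ P

open scoped Classical in
/-- Reduction intertwines a decomposition element with its action on the residue field. -/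
theorem red_smul (hσ : σ ∈ A.decompositionSubgroup ℚ) (ψ : κ →ₐ[ZMod q] κ)
    (hψ : ∀ a : κ, ψ a = (⟨σ, hσ⟩ : A.decompositionSubgroup ℚ) • a) (P : (EQ).Point) :
    red W hA hq hΔ (σ • P) = Point.map ψ (red W hA hq hΔ P) :=
  (red_spec W hA hq hΔ _).unique ((red_spec W hA hq hΔ P).map σ.toAlgHom ψ
    (fun x hx => (GaloisBasics.apply_mem_iff hσ x).mp hx)
    (fun _ a h => (red_apply hσ h).congr_right (hψ a).symm))

open scoped Classical in
/-- Reduction intertwines an arithmetic Frobenius with the `q`-power map. -/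
theorem red_smul_of_isFrobeniusAt (hσ : A.IsFrobeniusAt σ q) (ψ : κ →ₐ[ZMod q] κ)
    (hψ : ∀ a : κ, ψ a = a ^ q) (P : (EQ).Point) :
    red W hA hq hΔ (σ • P) = Point.map ψ (red W hA hq hΔ P) :=
  red_smul W hA hq hΔ hσ.mem_decompositionSubgroup ψ
    (fun a => (hψ a).trans (hσ.smul_residue_eq a).symm) P

open scoped Classical in
/-- Reduction on `n`-torsion. -/
noncomputable def redTorsion (n : ℕ) :
    Submodule.torsionBy ℤ (EQ).Point n →ₗ[ZMod n]
      Submodule.torsionBy ℤ ((W.reductionMod q)⁄κ).Point n :=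
  AddMonoidHom.toZModLinearMap n
    { toFun := fun P => ⟨red W hA hq hΔ (P : (EQ).Point), by
        rw [Submodule.mem_torsionBy_iff, ← map_zsmul, (Submodule.mem_torsionBy_iff _ _).mp P.2,
          map_zero]⟩
      map_zero' := Subtype.ext (map_zero (red W hA hq hΔ))
      map_add' := fun P Q => Subtype.ext (map_add (red W hA hq hΔ) (P : (EQ).Point) Q) }

open scoped Classical in
@[simp] lemma coe_redTorsion (n : ℕ) (P : Submodule.torsionBy ℤ (EQ).Point n) :
    (redTorsion W hA hq hΔ n P : ((W.reductionMod q)⁄κ).Point) =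
      red W hA hq hΔ (P : (EQ).Point) := rfl

open scoped Classical in
/-- Reduction is injective on torsion of order prime to the residue characteristic. -/
lemma redTorsion_injective {n : ℕ} (hn : ¬ q ∣ n) :
    Function.Injective (redTorsion W hA hq hΔ n) := by
  intro P Q h
  have h' := congrArg Subtype.val h
  rw [coe_redTorsion, coe_redTorsion] at h'
  refine Subtype.ext ((red_spec W hA hq hΔ _).eq_of_nsmul_eq_zero (curveRed_mod W)
    (natCast_residue_ne_zero hA hq hn) (h' ▸ red_spec W hA hq hΔ _) ?_ ?_)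
  · rw [← natCast_zsmul]
    exact (Submodule.mem_torsionBy_iff _ _).mp P.2
  · rw [← natCast_zsmul]
    exact (Submodule.mem_torsionBy_iff _ _).mp Q.2

open scoped Classical in
/-- Reduction is bijective on torsion of order prime to the residue characteristic when both
torsion groups have the same finite order. -/
lemma redTorsion_bijective {n m : ℕ} (hn : ¬ q ∣ n) (hm : m ≠ 0)
    (hE : Nat.card (Submodule.torsionBy ℤ (EQ).Point n) = m)
    (hF : Nat.card (Submodule.torsionBy ℤ ((W.reductionMod q)⁄κ).Point n) = m) :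
    Function.Bijective (redTorsion W hA hq hΔ n) := by
  have : Finite (Submodule.torsionBy ℤ ((W.reductionMod q)⁄κ).Point n) :=
    Nat.finite_of_card_ne_zero (by omega)
  exact (Nat.bijective_iff_injective_and_card _).mpr
    ⟨redTorsion_injective W hA hq hΔ hn, hE.trans hF.symm⟩

open scoped Classical in
/-- An endomorphism of the reduced torsion compatible with `σ` has the trace of `σ`. -/
theorem galoisTrace_eq {n : ℕ} (hbij : Function.Bijective (redTorsion W hA hq hΔ n))
    (T : Module.End (ZMod n) (Submodule.torsionBy ℤ ((W.reductionMod q)⁄κ).Point n))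
    (hT : ∀ P, T (redTorsion W hA hq hΔ n P) = redTorsion W hA hq hΔ n (σ • P)) :
    Point.galoisTrace ℚ (W.map (Int.castRingHom ℚ)) n σ = LinearMap.trace (ZMod n) _ T := by
  rw [Point.galoisTrace_def, ← LinearMap.trace_conj'
    (Point.galoisRepModuleEnd ℚ (W.map (Int.castRingHom ℚ)) n σ) (LinearEquiv.ofBijective _ hbij)]
  congr 1
  refine LinearMap.ext fun Q => ?_
  obtain ⟨P, rfl⟩ := hbij.2 Q
  rw [hT, LinearEquiv.conj_apply_apply, LinearEquiv.ofBijective_symm_apply_apply]
  rfl

open scoped Classical in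
/-- An endomorphism of the reduced torsion compatible with `σ` has the determinant of `σ`. -/
theorem galoisRepDet_eq {n : ℕ} (hbij : Function.Bijective (redTorsion W hA hq hΔ n))
    (T : Module.End (ZMod n) (Submodule.torsionBy ℤ ((W.reductionMod q)⁄κ).Point n))
    (hT : ∀ P, T (redTorsion W hA hq hΔ n P) = redTorsion W hA hq hΔ n (σ • P)) :
    (Point.galoisRepDet (S := ℚ) (K := AlgebraicClosure ℚ) (W.map (Int.castRingHom ℚ)) n σ :
      ZMod n) = LinearMap.det T := by
  rw [Point.galoisRepDet_apply, LinearEquiv.coe_det,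
    ← LinearMap.det_conj _ (LinearEquiv.ofBijective _ hbij)]
  congr 1
  refine LinearMap.ext fun Q => ?_
  obtain ⟨P, rfl⟩ := hbij.2 Q
  rw [hT]
  simp only [LinearMap.comp_apply, LinearEquiv.coe_coe]
  rw [LinearEquiv.ofBijective_symm_apply_apply]
  rfl

end Good

end Rational

end Fermat.Agent.ECReduction
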