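import Fermat.Agent.ECReduction.Galois
import Fermat.Agent.GaloisBasics.ResidueField
import Mathlib.LinearAlgebra.Charpoly.ToMatrix

/-!
# Frobenius on torsion through reduction

The `q`-power map of the residue field, its action on the reduced torsion, and the transfer of
relations, traces and determinants from the reduced curve to the Galois representation.
-/

noncomputable section

open scoped WeierstrassCurve.Affine

namespace Fermat.Agent.ECReduction

open WeierstrassCurve WeierstrassCurve.Affine

variable {A : ValuationSubring (AlgebraicClosure ℚ)} {q : ℕ}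
  [Algebra (ZMod q) (IsLocalRing.ResidueField A)]

local notation "κ" => IsLocalRing.ResidueField A

/-- The `q`-power map of the residue field. -/
def frobAlgHom (A : ValuationSubring (AlgebraicClosure ℚ)) (q : ℕ)
    [Algebra (ZMod q) (IsLocalRing.ResidueField A)] (hA : A.LiesOverPrime q) (hq : q.Prime) :
    IsLocalRing.ResidueField A →ₐ[ZMod q] IsLocalRing.ResidueField A :=
  haveI := GaloisBasics.residueField_charP hA hq
  haveI : Fact q.Prime := ⟨hq⟩
  { frobenius (IsLocalRing.ResidueField A) q with
    commutes' := fun c => by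
      show frobenius (IsLocalRing.ResidueField A) q _ = _
      rw [frobenius_def, ← map_pow, ZMod.pow_card] }

/-- The Frobenius of the residue field raises to the power `q`. -/
lemma frobAlgHom_apply (hA : A.LiesOverPrime q) (hq : q.Prime) (a : κ) :
    frobAlgHom A q hA hq a = a ^ q := rfl

variable (W : WeierstrassCurve ℤ)

local notation "EQ" => ((W.map (Int.castRingHom ℚ))⁄(AlgebraicClosure ℚ))

open scoped Classical in
/-- The `q`-power map on the torsion of the reduced curve. -/
def frobTorsion (hA : A.LiesOverPrime q) (hq : q.Prime) (n : ℕ) :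
    Module.End (ZMod n) (Submodule.torsionBy ℤ ((W.reductionMod q)⁄κ).Point n) :=
  AddMonoidHom.toZModLinearMap n
    { toFun := fun Q => ⟨Point.map (frobAlgHom A q hA hq) (Q : ((W.reductionMod q)⁄κ).Point), by
        rw [Submodule.mem_torsionBy_iff, ← map_zsmul, (Submodule.mem_torsionBy_iff _ _).mp Q.2,
          _root_.map_zero]⟩
      map_zero' := Subtype.ext (_root_.map_zero (Point.map (frobAlgHom A q hA hq)))
      map_add' := fun P Q => Subtype.ext (_root_.map_add (Point.map (frobAlgHom A q hA hq))
        (P : ((W.reductionMod q)⁄κ).Point) Q) }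

open scoped Classical in
/-- The value of the Frobenius on torsion points. -/
@[simp] lemma coe_frobTorsion (hA : A.LiesOverPrime q) (hq : q.Prime) (n : ℕ)
    (Q : Submodule.torsionBy ℤ ((W.reductionMod q)⁄κ).Point n) :
    (frobTorsion W hA hq n Q : ((W.reductionMod q)⁄κ).Point) =
      Point.map (frobAlgHom A q hA hq) (Q : ((W.reductionMod q)⁄κ).Point) := rfl

variable {σ : AlgebraicClosure ℚ ≃ₐ[ℚ] AlgebraicClosure ℚ} (hA : A.LiesOverPrime q)
  (hq : q.Prime) (hΔ : ¬ (q : ℤ) ∣ W.Δ)

open scoped Classical in
/-- Reduction turns a Frobenius element into the `q`-power map. -/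
theorem frobTorsion_redTorsion (hσ : A.IsFrobeniusAt σ q) (n : ℕ)
    (P : Submodule.torsionBy ℤ (EQ).Point n) :
    frobTorsion W hA hq n (redTorsion W hA hq hΔ n P) = redTorsion W hA hq hΔ n (σ • P) :=
  Subtype.ext (red_smul_of_isFrobeniusAt W hA hq hΔ hσ (frobAlgHom A q hA hq)
    (frobAlgHom_apply hA hq) (P : (EQ).Point)).symm

open scoped Classical in
/-- Trace of a Frobenius element, read on the reduced torsion. -/
theorem galoisTrace_eq_frobTorsion (hσ : A.IsFrobeniusAt σ q) {n : ℕ}
    (hbij : Function.Bijective (redTorsion W hA hq hΔ n)) :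
    Point.galoisTrace ℚ (W.map (Int.castRingHom ℚ)) n σ =
      LinearMap.trace (ZMod n) _ (frobTorsion W hA hq n) :=
  galoisTrace_eq W hA hq hΔ hbij _ (frobTorsion_redTorsion W hA hq hΔ hσ n)

open scoped Classical in
/-- Determinant of a Frobenius element, read on the reduced torsion. -/
theorem galoisRepDet_eq_frobTorsion (hσ : A.IsFrobeniusAt σ q) {n : ℕ}
    (hbij : Function.Bijective (redTorsion W hA hq hΔ n)) :
    (Point.galoisRepDet (S := ℚ) (K := AlgebraicClosure ℚ) (W.map (Int.castRingHom ℚ)) n σ :
      ZMod n) = LinearMap.det (frobTorsion W hA hq n) :=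
  galoisRepDet_eq W hA hq hΔ hbij _ (frobTorsion_redTorsion W hA hq hΔ hσ n)

end Fermat.Agent.ECReduction
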