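import Mathlib.AlgebraicGeometry.EllipticCurve.Affine.Point
import Mathlib.Tactic.LinearCombination
import Mathlib.Tactic.FieldSimp

/-!
# Identities for the line through two points of a Weierstrass cubic

Two expressions for the slope, the symmetric functions of the three intersection points and the
sum of `-x / y` over them.
-/

namespace Fermat.Agent.ECReduction

open WeierstrassCurve WeierstrassCurve.Affine Polynomial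

variable {F : Type*} [Field F] [DecidableEq F] {E : WeierstrassCurve.Affine F}
  {x₁ x₂ y₁ y₂ : F}

/-- The slope times the difference of the abscissae. -/
lemma slope_mul_X_sub (h₁ : E.Equation x₁ y₁) (h₂ : E.Equation x₂ y₂)
    (hxy : ¬(x₁ = x₂ ∧ y₁ = E.negY x₂ y₂)) :
    E.slope x₁ x₂ y₁ y₂ * (x₁ - x₂) = y₁ - y₂ := by
  by_cases hx : x₁ = x₂
  · have hy := Y_eq_of_Y_ne h₁ h₂ hx fun h => hxy ⟨hx, h⟩
    rw [hx, hy, sub_self, sub_self, mul_zero]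
  · rw [slope_of_X_ne hx, div_mul_cancel₀ _ (sub_ne_zero.mpr hx)]

/-- The slope times `y₁ - negY x₂ y₂`, in the form valid also for doubling. -/
lemma slope_mul_Y_sub (h₁ : E.Equation x₁ y₁) (h₂ : E.Equation x₂ y₂)
    (hxy : ¬(x₁ = x₂ ∧ y₁ = E.negY x₂ y₂)) :
    E.slope x₁ x₂ y₁ y₂ * (y₁ - E.negY x₂ y₂) =
      x₁ ^ 2 + x₁ * x₂ + x₂ ^ 2 + E.a₂ * (x₁ + x₂) + E.a₄ - E.a₁ * y₁ := by
  by_cases hx : x₁ = x₂
  · have hy' : y₁ ≠ E.negY x₂ y₂ := fun h => hxy ⟨hx, h⟩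
    have hy := Y_eq_of_Y_ne h₁ h₂ hx hy'
    subst hx hy
    rw [slope_of_Y_ne rfl hy', div_mul_cancel₀ _ (sub_ne_zero.mpr hy')]
    ring
  · refine mul_right_cancel₀ (sub_ne_zero.mpr hx) ?_
    rw [equation_iff] at h₁ h₂
    rw [slope_of_X_ne hx, div_mul_eq_mul_div, div_mul_cancel₀ _ (sub_ne_zero.mpr hx), negY]
    linear_combination h₁ - h₂

/-- The symmetric functions of the three roots of the cubic cut out by a chord. -/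
lemma chord_symm (h₁ : E.Equation x₁ y₁) (h₂ : E.Equation x₂ y₂)
    (hxy : ¬(x₁ = x₂ ∧ y₁ = E.negY x₂ y₂)) {l c x₃ : F} (hl : l = E.slope x₁ x₂ y₁ y₂)
    (hc : c = y₁ - l * x₁) (h₃ : x₃ = E.addX x₁ x₂ l) :
    x₁ + x₂ + x₃ = l ^ 2 + E.a₁ * l - E.a₂ ∧
      x₁ * x₂ + x₁ * x₃ + x₂ * x₃ = E.a₄ - 2 * l * c - E.a₁ * c - E.a₃ * l ∧
      x₁ * x₂ * x₃ = c ^ 2 + E.a₃ * c - E.a₆ := by
  have h := addPolynomial_slope h₁ h₂ hxy
  rw [addPolynomial_eq, neg_inj, Cubic.prod_X_sub_C_eq, Cubic.toPoly_injective, ← hl, ← h₃] at h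
  simp only [Cubic.ext_iff] at h
  obtain ⟨-, hb, hc', hd⟩ := h
  subst hc
  refine ⟨?_, ?_, ?_⟩
  · linear_combination hb
  · linear_combination -hc'
  · linear_combination hd

omit [DecidableEq F] in
/-- The sum of `-x/y` over three collinear points, in the parameters of the line. -/
lemma chord_param_sum {a₁ a₂ a₃ a₄ a₆ x₁ x₂ x₃ y₁ y₂ y₃ l c : F}
    (e₁ : x₁ + x₂ + x₃ = l ^ 2 + a₁ * l - a₂)
    (e₂ : x₁ * x₂ + x₁ * x₃ + x₂ * x₃ = a₄ - 2 * l * c - a₁ * c - a₃ * l)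
    (e₃ : x₁ * x₂ * x₃ = c ^ 2 + a₃ * c - a₆)
    (h₁ : y₁ = l * x₁ + c) (h₂ : y₂ = l * x₂ + c) (h₃ : y₃ = l * x₃ + c)
    (n₁ : y₁ ≠ 0) (n₂ : y₂ ≠ 0) (n₃ : y₃ ≠ 0) (nc : c ≠ 0) :
    (-x₁ / y₁ + -x₂ / y₂ + -x₃ / y₃) *
        (1 - a₂ * (l / c) + a₄ * (l / c) ^ 2 - a₆ * (l / c) ^ 3) =
      a₁ * (l / c) + a₂ * c⁻¹ - a₃ * (l / c) ^ 2 - 2 * a₄ * (l / c) * c⁻¹ +
        3 * a₆ * (l / c) ^ 2 * c⁻¹ := by
  have hD : y₁ * y₂ * y₃ = c ^ 3 - a₂ * l * c ^ 2 + a₄ * l ^ 2 * c - a₆ * l ^ 3 := by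
    subst h₁ h₂ h₃
    linear_combination l * c ^ 2 * e₁ + l ^ 2 * c * e₂ + l ^ 3 * e₃
  have hN : x₁ * (y₂ * y₃) + x₂ * (y₁ * y₃) + x₃ * (y₁ * y₂) =
      a₃ * l ^ 2 * c - 3 * a₆ * l ^ 2 + 2 * a₄ * l * c - a₁ * l * c ^ 2 - a₂ * c ^ 2 := by
    subst h₁ h₂ h₃
    linear_combination c ^ 2 * e₁ + 2 * l * c * e₂ + 3 * l ^ 2 * e₃
  have hsum : (-x₁ / y₁ + -x₂ / y₂ + -x₃ / y₃) * (y₁ * y₂ * y₃) =
      -(a₃ * l ^ 2 * c - 3 * a₆ * l ^ 2 + 2 * a₄ * l * c - a₁ * l * c ^ 2 - a₂ * c ^ 2) := by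
    rw [← hN]
    field_simp
    ring
  generalize -x₁ / y₁ + -x₂ / y₂ + -x₃ / y₃ = S at hsum ⊢
  rw [hD] at hsum
  field_simp
  linear_combination hsum

end Fermat.Agent.ECReduction
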