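import Fermat.Agent.ECReduction.Rel
import Fermat.Agent.ECReduction.Line

/-!
# The kernel of reduction: the points with non-integral abscissa

`InKer A P` says that `P` is zero or has non-integral abscissa.
`zParam P = -x/y` is the parameter at infinity; it is additive to first order on the kernel,
whence the kernel has no torsion of order invertible in the residue field.
-/

namespace Fermat.Agent.ECReduction

open WeierstrassCurve WeierstrassCurve.Affine

variable {K : Type*} [Field K] [DecidableEq K] (A : ValuationSubring K)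
  {E : WeierstrassCurve.Affine K}

/-- All coefficients of the curve lie in the valuation subring. -/
structure IntegralCoeffs (E : WeierstrassCurve.Affine K) : Prop where
  a₁ : A.valuation E.a₁ ≤ 1
  a₂ : A.valuation E.a₂ ≤ 1
  a₃ : A.valuation E.a₃ ≤ 1
  a₄ : A.valuation E.a₄ ≤ 1
  a₆ : A.valuation E.a₆ ≤ 1

/-- The point is zero or has non-integral abscissa. -/
def InKer : E.Point → Prop
  | .zero => True
  | .some x _ _ => x ∉ A

/-- The parameter `-x/y` at infinity. -/
def zParam : E.Point → K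
  | .zero => 0
  | .some x y _ => -x / y

variable {A}

omit [DecidableEq K] in
/-- The parameter of zero. -/
@[simp] lemma zParam_zero : zParam (0 : E.Point) = 0 := rfl

omit [DecidableEq K] in
/-- Zero lies in the kernel of reduction. -/
lemma inKer_zero : InKer A (0 : E.Point) := trivial

omit [DecidableEq K] in
/-- An element outside the valuation ring has valuation above one. -/
lemma one_lt_valuation {x : K} (hx : x ∉ A) : 1 < A.valuation x :=
  lt_of_not_ge fun h => hx (A.mem_of_valuation_le_one x h)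

omit [DecidableEq K] in
/-- An integral factor does not increase the valuation. -/
lemma val_mul_le_of_le_one {a x : K} (ha : A.valuation a ≤ 1) :
    A.valuation (a * x) ≤ A.valuation x := by
  rw [map_mul]
  exact mul_le_of_le_one_left' ha

omit [DecidableEq K] in
lemma val_natCast_le_one (n : ℕ) : A.valuation (n : K) ≤ 1 :=
  (A.valuation_le_one_iff _).mpr (natCast_mem A n)

omit [DecidableEq K] in
/-- Numerals have valuation at most one. -/
lemma val_ofNat_le_one (n : ℕ) [n.AtLeastTwo] :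
    A.valuation (OfNat.ofNat n : K) ≤ 1 := val_natCast_le_one n

omit [DecidableEq K] in
/-- The kernel of reduction is stable under negation. -/
lemma inKer_neg {P : E.Point} (hP : InKer A P) : InKer A (-P) := by
  rcases P with _ | ⟨x, y, h⟩
  · exact inKer_zero
  · exact hP

namespace IntegralCoeffs

variable (hE : IntegralCoeffs A E)
include hE

omit [DecidableEq K] in
/-- `|y| ^ 2 = |x| ^ 3` and `|x| < |y|` when `x` is not integral. -/
lemma val_Y {x y : K} (he : E.Equation x y) (hx : x ∉ A) :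
    A.valuation y ^ 2 = A.valuation x ^ 3 ∧ A.valuation x < A.valuation y := by
  have hX := one_lt_valuation hx
  set v := A.valuation
  have hX0 : 0 < v x := zero_lt_one.trans hX
  rw [equation_iff] at he
  have h12 : v x ^ 2 < v x ^ 3 := pow_lt_pow_right₀ hX (by norm_num)
  have hle : ∀ n : ℕ, n ≤ 2 → v x ^ n < v x ^ 3 := fun n hn =>
    lt_of_le_of_lt (pow_le_pow_right₀ hX.le hn) h12
  have hR : v (x ^ 3 + E.a₂ * x ^ 2 + E.a₄ * x + E.a₆) = v x ^ 3 := by
    have b2 : v (E.a₂ * x ^ 2) < v x ^ 3 :=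
      lt_of_le_of_lt (val_mul_le_of_le_one hE.a₂) (by rw [map_pow]; exact h12)
    have b4 : v (E.a₄ * x) < v x ^ 3 :=
      lt_of_le_of_lt (val_mul_le_of_le_one hE.a₄) (by simpa using hle 1 (by norm_num))
    have b6 : v E.a₆ < v x ^ 3 :=
      lt_of_le_of_lt hE.a₆ (by simpa using hle 0 (by norm_num))
    have : v (E.a₂ * x ^ 2 + E.a₄ * x + E.a₆) < v x ^ 3 :=
      v.map_add_lt (v.map_add_lt b2 b4) b6
    rw [show x ^ 3 + E.a₂ * x ^ 2 + E.a₄ * x + E.a₆ =
        x ^ 3 + (E.a₂ * x ^ 2 + E.a₄ * x + E.a₆) by ring,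
      v.map_add_eq_of_lt_left (by rwa [map_pow]), map_pow]
  rw [← he] at hR
  have hxy : v x < v y := by
    by_contra! hc
    have h1 : v (y ^ 2) ≤ v x ^ 2 := by
      rw [map_pow]
      exact pow_le_pow_left₀ zero_le hc 2
    have h2 : v (E.a₁ * x * y) ≤ v x ^ 2 := by
      rw [mul_assoc]
      refine (val_mul_le_of_le_one hE.a₁).trans ?_
      rw [map_mul, pow_two]
      exact mul_le_mul_right hc _
    have h3 : v (E.a₃ * y) ≤ v x ^ 2 :=
      (val_mul_le_of_le_one hE.a₃).trans (hc.trans (le_self_pow hX.le (by norm_num)))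
    have := v.map_add_le (v.map_add_le h1 h2) h3
    rw [hR] at this
    exact absurd this (not_le.mpr h12)
  refine ⟨?_, hxy⟩
  have hY1 : 1 < v y := hX.trans hxy
  have h1 : v (E.a₁ * x * y + E.a₃ * y) < v (y ^ 2) := by
    rw [map_pow, pow_two]
    refine v.map_add_lt ?_ ?_
    · rw [mul_assoc]
      refine lt_of_le_of_lt (val_mul_le_of_le_one hE.a₁) ?_
      rw [map_mul]
      exact mul_lt_mul_of_pos_right hxy (zero_lt_one.trans hY1)
    · exact lt_of_le_of_lt (val_mul_le_of_le_one hE.a₃)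
        (lt_mul_of_one_lt_left (zero_lt_one.trans hY1) hY1)
  rw [← hR, add_assoc, v.map_add_eq_of_lt_left h1, map_pow]

omit [DecidableEq K] in
lemma not_mem_Y {x y : K} (he : E.Equation x y) (hx : x ∉ A) : y ∉ A := fun h =>
  absurd ((A.valuation_le_one_iff y).mpr h)
    (not_le.mpr ((one_lt_valuation hx).trans (hE.val_Y he hx).2))

omit [DecidableEq K] in
/-- An integral abscissa forces an integral ordinate. -/
lemma mem_Y {x y : K} (he : E.Equation x y) (hx : x ∈ A) : y ∈ A := by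
  rw [← A.valuation_le_one_iff] at hx ⊢
  set v := A.valuation
  by_contra! hy
  rw [equation_iff] at he
  have hR : v (x ^ 3 + E.a₂ * x ^ 2 + E.a₄ * x + E.a₆) ≤ 1 := by
    refine v.map_add_le (v.map_add_le (v.map_add_le ?_ ?_) ?_) hE.a₆
    · rw [map_pow]; exact pow_le_one₀ zero_le hx
    · exact (val_mul_le_of_le_one hE.a₂).trans (by rw [map_pow]; exact pow_le_one₀ zero_le hx)
    · exact (val_mul_le_of_le_one hE.a₄).trans hx
  rw [← he] at hR
  have h1 : v (E.a₁ * x * y + E.a₃ * y) < v (y ^ 2) := by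
    have hlt : v y < v (y ^ 2) := by
      rw [map_pow, pow_two]
      exact lt_mul_of_one_lt_left (zero_lt_one.trans hy) hy
    refine v.map_add_lt ?_ (lt_of_le_of_lt (val_mul_le_of_le_one hE.a₃) hlt)
    rw [mul_assoc]
    exact lt_of_le_of_lt ((val_mul_le_of_le_one hE.a₁).trans (val_mul_le_of_le_one hx)) hlt
  rw [add_assoc, v.map_add_eq_of_lt_left h1, map_pow] at hR
  exact absurd hR (not_le.mpr (one_lt_pow₀ hy (by norm_num)))

/-- The kernel is closed under addition. -/
lemma inKer_add {P Q : E.Point} (hP : InKer A P) (hQ : InKer A Q) : InKer A (P + Q) := by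
  rcases P with _ | ⟨x₁, y₁, h₁⟩
  · simpa only [← Point.zero_def, zero_add] using hQ
  rcases Q with _ | ⟨x₂, y₂, h₂⟩
  · simpa only [← Point.zero_def, add_zero] using hP
  by_cases hxy : x₁ = x₂ ∧ y₁ = E.negY x₂ y₂
  · rw [Point.add_of_Y_eq hxy.1 hxy.2]
    exact inKer_zero
  rw [Point.add_some hxy]
  change _ ∉ A
  intro hx₃
  obtain ⟨hV1, -⟩ := hE.val_Y h₁.1 hP
  obtain ⟨hV2, -⟩ := hE.val_Y h₂.1 hQ
  have hy₃ := hE.mem_Y (equation_negAdd h₁.1 h₂.1 hxy) hx₃
  have hX1 : 1 < A.valuation x₁ := one_lt_valuation hP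
  have hX2 : 1 < A.valuation x₂ := one_lt_valuation hQ
  obtain ⟨-, e₂, -⟩ := chord_symm h₁.1 h₂.1 hxy rfl rfl rfl
  have hl := slope_mul_X_sub h₁.1 h₂.1 hxy
  simp only [negAddY] at hy₃
  set l := E.slope x₁ x₂ y₁ y₂
  set x₃ := E.addX x₁ x₂ l
  set y₃ := l * (x₃ - x₁) + y₁ with hy₃def
  rw [← A.valuation_le_one_iff] at hx₃ hy₃
  set v := A.valuation
  have key : ∀ x y : K, 1 < v x → v y ^ 2 = v x ^ 3 → y - y₃ = l * (x - x₃) →
      v l ^ 2 = v x := by
    intro x y hx hy he
    have hy1 : 1 < v y := by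
      by_contra! hc
      exact absurd (hy ▸ pow_le_one₀ zero_le hc) (not_le.mpr (one_lt_pow₀ hx (by norm_num)))
    have := congrArg v he
    rw [v.map_sub_eq_of_lt_left (lt_of_le_of_lt hy₃ hy1), map_mul,
      v.map_sub_eq_of_lt_left (lt_of_le_of_lt hx₃ hx)] at this
    rw [this, mul_pow] at hy
    refine mul_right_cancel₀ (pow_ne_zero 2 (zero_lt_one.trans hx).ne') ?_
    rw [hy, pow_succ']
  have k1 : v l ^ 2 = v x₁ := key x₁ y₁ hX1 hV1 (by rw [hy₃def]; ring)
  have k2 : v l ^ 2 = v x₂ := key x₂ y₂ hX2 hV2 (by rw [hy₃def]; linear_combination hl)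
  have hl1 : 1 ≤ v l := by
    by_contra! hc
    exact absurd (k1 ▸ pow_le_one₀ zero_le hc.le) (not_le.mpr hX1)
  have hll : v l ≤ v l ^ 2 := le_self_pow hl1 (by norm_num)
  have hc : v (y₁ - l * x₁) ≤ v l := by
    rw [show y₁ - l * x₁ = y₃ - l * x₃ by rw [hy₃def]; ring]
    refine v.map_sub_le (hy₃.trans hl1) ?_
    rw [map_mul]
    exact mul_le_of_le_one_right' hx₃
  have hbound : v (x₁ * x₂) ≤ v l ^ 2 := by
    rw [show x₁ * x₂ =
      E.a₄ - 2 * l * (y₁ - l * x₁) - E.a₁ * (y₁ - l * x₁) - E.a₃ * l - x₃ * (x₁ + x₂) by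
        linear_combination e₂]
    refine v.map_sub_le (v.map_sub_le (v.map_sub_le (v.map_sub_le ?_ ?_) ?_) ?_) ?_
    · exact hE.a₄.trans (hl1.trans hll)
    · rw [mul_assoc]
      refine (val_mul_le_of_le_one (val_ofNat_le_one 2)).trans ?_
      rw [map_mul, pow_two]
      exact mul_le_mul_right hc _
    · exact (val_mul_le_of_le_one hE.a₁).trans (hc.trans hll)
    · exact (val_mul_le_of_le_one hE.a₃).trans hll
    · exact (val_mul_le_of_le_one hx₃).trans (v.map_add_le k1.ge k2.ge)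
  rw [map_mul, ← k1, ← k2] at hbound
  exact absurd hbound (not_le.mpr
    (lt_mul_of_one_lt_left (zero_lt_one.trans (k1.symm ▸ hX1)) (k1.symm ▸ hX1)))

omit [DecidableEq K] in
/-- For a nonzero kernel point, `|z|^2 |x| = 1` and `|z| < 1`. -/
lemma val_zParam {x y : K} (h : E.Nonsingular x y) (hx : x ∉ A) :
    A.valuation (zParam (Point.some x y h)) ^ 2 * A.valuation x = 1 ∧
      A.valuation (zParam (Point.some x y h)) < 1 := by
  obtain ⟨hV, hlt⟩ := hE.val_Y h.1 hx
  have hx0 : 0 < A.valuation x := zero_lt_one.trans (one_lt_valuation hx)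
  rw [zParam, map_div₀, Valuation.map_neg]
  refine ⟨?_, (div_lt_one₀ (hx0.trans hlt)).mpr hlt⟩
  rw [div_pow, hV, div_mul_eq_mul_div, ← pow_succ, div_self (pow_ne_zero 3 hx0.ne')]

omit [DecidableEq K] in
/-- A nonzero point of the kernel has nonzero parameter. -/
lemma zParam_ne_zero {P : E.Point} (hP : InKer A P) (h0 : P ≠ 0) : zParam P ≠ 0 := by
  rcases P with _ | ⟨x, y, h⟩
  · exact absurd rfl h0
  · intro hz
    have := (hE.val_zParam h hP).1
    rw [hz, map_zero] at this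
    simp at this

omit [DecidableEq K] in
/-- The parameter of a point of the kernel lies in the maximal ideal. -/
lemma zParam_lt_one {P : E.Point} (hP : InKer A P) : A.valuation (zParam P) < 1 := by
  rcases P with _ | ⟨x, y, h⟩
  · simp [zParam]
  · exact (hE.val_zParam h hP).2

omit [DecidableEq K] in
/-- Negation is `z ↦ -z` to first order. -/
lemma zParam_neg {P : E.Point} (hP : InKer A P) :
    A.valuation (zParam P + zParam (-P)) ≤ A.valuation (zParam P) ^ 2 := by
  rcases P with _ | ⟨x, y, h⟩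
  · simp [← Point.zero_def]
  obtain ⟨hV, hlt⟩ := hE.val_Y h.1 hP
  obtain ⟨hV', -⟩ := hE.val_Y ((equation_neg x y).mpr h.1) hP
  have hx0 : 0 < A.valuation x := zero_lt_one.trans (one_lt_valuation hP)
  rw [Point.neg_some]
  simp only [zParam]
  set v := A.valuation
  have hy : v y ≠ 0 := (hx0.trans hlt).ne'
  have hy' : v (E.negY x y) = v y :=
    (pow_left_inj₀ zero_le zero_le (by norm_num : (2 : ℕ) ≠ 0)).mp (hV'.trans hV.symm)
  have hy0 : y ≠ 0 := fun e => hy (by rw [e, map_zero])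
  have hn0 : E.negY x y ≠ 0 := fun e => hy (by rw [← hy', e, map_zero])
  have e : -x / y + -x / E.negY x y = x * (E.a₁ * x + E.a₃) / (y * E.negY x y) := by
    field_simp
    simp only [negY]
    ring
  rw [e, map_div₀, map_mul, map_mul, hy', ← pow_two, map_div₀, Valuation.map_neg, div_pow]
  refine div_le_div_of_nonneg_right ?_ zero_le
  rw [pow_two]
  exact mul_le_mul_right (v.map_add_le (val_mul_le_of_le_one hE.a₁)
    (hE.a₃.trans (one_lt_valuation hP).le)) _

/-- Addition is linear in `-x/y` up to quadratic error on the kernel. -/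
lemma zParam_add {P Q : E.Point} (hP : InKer A P) (hQ : InKer A Q) :
    A.valuation (zParam (P + Q) - zParam P - zParam Q) ≤
      max (A.valuation (zParam P)) (A.valuation (zParam Q)) ^ 2 := by
  set M := max (A.valuation (zParam P)) (A.valuation (zParam Q)) with hM
  rcases P with _ | ⟨x₁, y₁, h₁⟩
  · simp [← Point.zero_def]
  rcases Q with _ | ⟨x₂, y₂, h₂⟩
  · simp [← Point.zero_def]
  by_cases hxy : x₁ = x₂ ∧ y₁ = E.negY x₂ y₂
  · have he : Point.some x₁ y₁ h₁ = -Point.some x₂ y₂ h₂ := by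
      simp [hxy.1, hxy.2]
    rw [Point.add_of_Y_eq hxy.1 hxy.2, he, zParam_zero, zero_sub, ← neg_add', Valuation.map_neg,
      add_comm]
    exact (hE.zParam_neg hQ).trans (pow_le_pow_left₀ zero_le (le_max_right _ _) 2)
  have hsum := hE.inKer_add hP hQ
  rw [Point.add_some hxy] at hsum ⊢
  set l := E.slope x₁ x₂ y₁ y₂ with hl
  set c := y₁ - l * x₁ with hc
  set x₃ := E.addX x₁ x₂ l with hx₃
  set y₃ := E.negAddY x₁ x₂ y₁ l with hy₃
  have h₃ : E.Nonsingular x₃ y₃ := nonsingular_negAdd h₁ h₂ hxy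
  have hR : (Point.some _ _ (nonsingular_add h₁ h₂ hxy)) = -Point.some x₃ y₃ h₃ := rfl
  have h₃k : x₃ ∉ A := hsum
  obtain ⟨e₁, e₂, e₃⟩ := chord_symm h₁.1 h₂.1 hxy hl hc hx₃
  have l₁ : y₁ = l * x₁ + c := by rw [hc]; ring
  have l₂ : y₂ = l * x₂ + c := by
    rw [hc]
    linear_combination slope_mul_X_sub h₁.1 h₂.1 hxy
  have l₃ : y₃ = l * x₃ + c := by rw [hc, hy₃, negAddY, ← hx₃]; ring
  obtain ⟨hz₁, hz₁'⟩ := hE.val_zParam h₁ hP
  obtain ⟨hz₂, hz₂'⟩ := hE.val_zParam h₂ hQ
  obtain ⟨hz₃, hz₃'⟩ := hE.val_zParam h₃ h₃k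
  obtain ⟨hV1, hlt1⟩ := hE.val_Y h₁.1 hP
  have hne : ∀ {x y : K}, E.Equation x y → x ∉ A → y ≠ 0 := fun he hx e =>
    hE.not_mem_Y he hx (e ▸ A.zero_mem)
  have hneg := hE.zParam_neg (P := Point.some x₃ y₃ h₃) h₃k
  rw [← hR] at hneg
  have key := chord_param_sum e₁ e₂ e₃ l₁ l₂ l₃ (hne h₁.1 hP) (hne h₂.1 hQ) (hne h₃.1 h₃k)
  set v := A.valuation
  set Z₁ := v (zParam (Point.some x₁ y₁ h₁))
  set Z₂ := v (zParam (Point.some x₂ y₂ h₂))
  set Z₃ := v (zParam (Point.some x₃ y₃ h₃))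
  have hX1 : 1 < v x₁ := one_lt_valuation hP
  have hc1 : 1 < v c := by
    by_contra! hc1
    have h : v (c ^ 2 + E.a₃ * c - E.a₆) ≤ 1 :=
      v.map_sub_le (v.map_add_le (by rw [map_pow]; exact pow_le_one₀ zero_le hc1)
        ((val_mul_le_of_le_one hE.a₃).trans hc1)) hE.a₆
    rw [← e₃, map_mul, map_mul] at h
    exact absurd h (not_le.mpr (one_lt_mul_of_lt_of_le
      (one_lt_mul_of_lt_of_le hX1 (one_lt_valuation hQ).le) (one_lt_valuation h₃k).le))
  have hc0 : c ≠ 0 := fun e => by simp [e] at hc1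
  have hvc : v c ^ 2 = v x₁ * v x₂ * v x₃ := by
    have h : v (E.a₃ * c - E.a₆) < v (c ^ 2) := by
      rw [map_pow]
      exact lt_of_le_of_lt
        (v.map_sub_le (val_mul_le_of_le_one hE.a₃) (hE.a₆.trans hc1.le))
        (lt_self_pow₀ hc1 (by norm_num))
    rw [← map_mul, ← map_mul, e₃, add_sub_assoc, v.map_add_eq_of_lt_left h, map_pow]
  set T := max (max Z₁ Z₂) Z₃ with hT
  have hT1 : T < 1 := max_lt (max_lt hz₁' hz₂') hz₃'
  have hZ₁ : Z₁ ≤ T := (le_max_left _ _).trans (le_max_left _ _)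
  have hZ₂ : Z₂ ≤ T := (le_max_right _ _).trans (le_max_left _ _)
  have hZ₃ : Z₃ ≤ T := le_max_right _ _
  have hinv : v c⁻¹ = Z₁ * Z₂ * Z₃ := by
    refine (pow_left_inj₀ zero_le zero_le (by norm_num : (2 : ℕ) ≠ 0)).mp ?_
    rw [map_inv₀, inv_pow]
    refine inv_eq_of_mul_eq_one_right ?_
    rw [hvc]
    calc v x₁ * v x₂ * v x₃ * (Z₁ * Z₂ * Z₃) ^ 2
        = (Z₁ ^ 2 * v x₁) * (Z₂ ^ 2 * v x₂) * (Z₃ ^ 2 * v x₃) := by simp only [mul_pow]; ac_rfl
      _ = 1 := by rw [hz₁, hz₂, hz₃, mul_one, mul_one]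
  have hic : v c⁻¹ ≤ T ^ 2 := by
    rw [hinv, pow_two]
    exact (mul_le_of_le_one_right' hz₃'.le).trans (mul_le_mul' hZ₁ hZ₂)
  have hx1inv : v x₁⁻¹ = Z₁ ^ 2 := by
    rw [map_inv₀]
    exact inv_eq_of_mul_eq_one_left hz₁
  have hq : v (y₁ * (c⁻¹ * x₁⁻¹)) = Z₂ * Z₃ := by
    refine (pow_left_inj₀ zero_le zero_le (by norm_num : (2 : ℕ) ≠ 0)).mp ?_
    rw [map_mul, map_mul, hinv, hx1inv]
    calc (v y₁ * (Z₁ * Z₂ * Z₃ * Z₁ ^ 2)) ^ 2
        = v y₁ ^ 2 * (Z₁ ^ 2) ^ 3 * (Z₂ * Z₃) ^ 2 := by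
          simp only [pow_succ, pow_zero, one_mul]; ac_rfl
      _ = (Z₁ ^ 2 * v x₁) ^ 3 * (Z₂ * Z₃) ^ 2 := by
          rw [hV1, mul_pow (Z₁ ^ 2), mul_comm (v x₁ ^ 3)]
      _ = (Z₂ * Z₃) ^ 2 := by rw [hz₁, one_pow, one_mul]
  have hmu : v (l / c) ≤ T ^ 2 := by
    have hx10 : x₁ ≠ 0 := fun e => by simp [e] at hX1
    rw [show l / c = y₁ * (c⁻¹ * x₁⁻¹) - x₁⁻¹ by rw [l₁]; field_simp; ring]
    refine v.map_sub_le ?_ ?_
    · rw [hq, pow_two]
      exact mul_le_mul' hZ₂ hZ₃
    · rw [hx1inv]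
      exact pow_le_pow_left₀ zero_le hZ₁ 2
  specialize key hc0
  set m := l / c
  have hT2 : T ^ 2 < 1 := pow_lt_one₀ zero_le hT1 (by norm_num)
  have hm1 : v m ≤ 1 := hmu.trans hT2.le
  have hunit : v (1 - E.a₂ * m + E.a₄ * m ^ 2 - E.a₆ * m ^ 3) = 1 := by
    have h : v (E.a₂ * m - E.a₄ * m ^ 2 + E.a₆ * m ^ 3) ≤ T ^ 2 := by
      refine v.map_add_le (v.map_sub_le ((val_mul_le_of_le_one hE.a₂).trans hmu) ?_) ?_
      · refine (val_mul_le_of_le_one hE.a₄).trans ?_
        rw [map_pow]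
        exact (pow_le_of_le_one zero_le hm1 (by norm_num)).trans hmu
      · refine (val_mul_le_of_le_one hE.a₆).trans ?_
        rw [map_pow]
        exact (pow_le_of_le_one zero_le hm1 (by norm_num)).trans hmu
    rw [show 1 - E.a₂ * m + E.a₄ * m ^ 2 - E.a₆ * m ^ 3 =
      1 - (E.a₂ * m - E.a₄ * m ^ 2 + E.a₆ * m ^ 3) by ring,
      v.map_sub_eq_of_lt_left (by rw [map_one]; exact lt_of_le_of_lt h hT2), map_one]
  have hS : v (-x₁ / y₁ + -x₂ / y₂ + -x₃ / y₃) ≤ T ^ 2 := by
    have := congrArg v key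
    rw [map_mul, hunit, mul_one] at this
    rw [this]
    have hm2 : v (m ^ 2) ≤ T ^ 2 := by
      rw [map_pow]
      exact (pow_le_of_le_one zero_le hm1 (by norm_num)).trans hmu
    refine v.map_add_le (v.map_sub_le (v.map_sub_le (v.map_add_le
      ((val_mul_le_of_le_one hE.a₁).trans hmu) ((val_mul_le_of_le_one hE.a₂).trans hic))
      ((val_mul_le_of_le_one hE.a₃).trans hm2)) ?_) ?_
    · refine (val_mul_le_of_le_one ?_).trans hic
      rw [map_mul, map_mul]
      exact mul_le_one' (mul_le_one' (val_ofNat_le_one 2) hE.a₄) hm1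
    · refine (val_mul_le_of_le_one ?_).trans hic
      rw [map_mul, map_mul, map_pow]
      exact mul_le_one' (mul_le_one' (val_ofNat_le_one 3) hE.a₆) (pow_le_one₀ zero_le hm1)
  have hsumz : v (zParam (Point.some x₁ y₁ h₁) + zParam (Point.some x₂ y₂ h₂) +
      zParam (Point.some x₃ y₃ h₃)) ≤ T ^ 2 := hS
  have hTM : T ≤ M := by
    refine max_le le_rfl ?_
    by_contra! hlt
    have hlt' : v (zParam (Point.some x₁ y₁ h₁) + zParam (Point.some x₂ y₂ h₂)) < Z₃ :=
      v.map_add_lt (lt_of_le_of_lt (le_max_left _ _) hlt) (lt_of_le_of_lt (le_max_right _ _) hlt)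
    rw [v.map_add_eq_of_lt_right hlt', hT, max_eq_right hlt.le] at hsumz
    have hpos : 0 < Z₃ := lt_of_le_of_lt zero_le hlt
    exact absurd hsumz (not_le.mpr (by
      rw [pow_two]; exact mul_lt_of_lt_one_left hpos hz₃'))
  refine le_trans ?_ (pow_le_pow_left₀ zero_le hTM 2)
  rw [hR] at *
  generalize zParam (-Point.some x₃ y₃ h₃) = z at hneg ⊢
  have : v (zParam (Point.some x₃ y₃ h₃) + z) ≤ T ^ 2 :=
    hneg.trans (pow_le_pow_left₀ zero_le hZ₃ 2)
  have := v.map_sub_le this hsumz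
  convert this using 2
  ring

/-- The kernel of reduction is stable under multiples. -/
lemma inKer_nsmul {P : E.Point} (hP : InKer A P) (n : ℕ) : InKer A (n • P) := by
  induction n with
  | zero => simpa using inKer_zero
  | succ n ih => rw [succ_nsmul]; exact hE.inKer_add ih hP

/-- `z(nP) = n z(P) + O(z(P)^2)`. -/
lemma zParam_nsmul {P : E.Point} (hP : InKer A P) (n : ℕ) :
    A.valuation (zParam (n • P) - n * zParam P) ≤ A.valuation (zParam P) ^ 2 := by
  induction n with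
  | zero => simp
  | succ n ih =>
    set v := A.valuation
    set Z := v (zParam P)
    have hsq : Z ^ 2 ≤ Z := pow_le_of_le_one zero_le (hE.zParam_lt_one hP).le (by norm_num)
    have h1 : v (zParam (n • P)) ≤ Z := by
      have := v.map_add_le (ih.trans hsq)
        (val_mul_le_of_le_one (x := zParam P) (val_natCast_le_one (A := A) n))
      rwa [sub_add_cancel] at this
    have h2 := hE.zParam_add (hE.inKer_nsmul hP n) hP
    rw [max_eq_right h1, ← succ_nsmul] at h2
    have := v.map_add_le h2 ih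
    convert this using 2
    push_cast
    ring

/-- The kernel of reduction has no torsion of order a unit of `A`. -/
lemma eq_zero_of_nsmul_eq_zero {P : E.Point} (hP : InKer A P) {n : ℕ}
    (hn : A.valuation (n : K) = 1) (h : n • P = 0) : P = 0 := by
  by_contra h0
  have := hE.zParam_nsmul hP n
  rw [h, zParam_zero, zero_sub, Valuation.map_neg, map_mul, hn, one_mul] at this
  have hpos : 0 < A.valuation (zParam P) :=
    (Valuation.pos_iff _).mpr (hE.zParam_ne_zero hP h0)
  exact absurd this (not_le.mpr (by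
    rw [pow_two]; exact mul_lt_of_lt_one_left hpos (hE.zParam_lt_one hP)))

end IntegralCoeffs

end Fermat.Agent.ECReduction
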