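import Mathlib.AlgebraicGeometry.EllipticCurve.Affine.Point
import Mathlib.RingTheory.Valuation.ValuationSubring
import Mathlib.Tactic.LinearCombination
import Mathlib.Tactic.FieldSimp

/-!
# The reduction relation attached to a place

For a valuation subring `A` of a field `K` and a local homomorphism `φ : A →+* k` to a field,
`Red φ x a` says that `x` is integral and reduces to `a`.
`CurveRed φ E F` says that the Weierstrass coefficients of `E` reduce to those of `F`.
-/

namespace Fermat.Agent.ECReduction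

variable {K k : Type*} [Field K] [Field k] {A : ValuationSubring K}

/-- `x` lies in `A` and reduces to `a` under `φ`. -/
def Red (φ : A →+* k) (x : K) (a : k) : Prop :=
  ∃ h : x ∈ A, φ ⟨x, h⟩ = a

namespace Red

variable {φ : A →+* k} {x y : K} {a b : k}

/-- A reducible element is integral. -/
lemma mem (h : Red φ x a) : x ∈ A := h.1

/-- The reduction is unique. -/
lemma unique (h : Red φ x a) (h' : Red φ x b) : a = b := h.2.symm.trans h'.2

/-- An integral element reduces to its image. -/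
lemma of_mem (φ : A →+* k) (h : x ∈ A) : Red φ x (φ ⟨x, h⟩) := ⟨h, rfl⟩

/-- An integral element has a reduction. -/
lemma exists_of_mem (φ : A →+* k) (h : x ∈ A) : ∃ a, Red φ x a := ⟨_, of_mem φ h⟩

/-- Rewriting the reduced value. -/
lemma congr_right (h : Red φ x a) (e : a = b) : Red φ x b := e ▸ h

/-- Rewriting the reduced element. -/
lemma congr_left (h : Red φ x a) (e : x = y) : Red φ y a := e ▸ h

variable (φ)

/-- Zero reduces to zero. -/
protected lemma zero : Red φ 0 0 := ⟨A.zero_mem, map_zero φ⟩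

/-- One reduces to one. -/
protected lemma one : Red φ 1 1 := ⟨A.one_mem, map_one φ⟩

variable {φ}

/-- Reduction is additive. -/
protected lemma add (hx : Red φ x a) (hy : Red φ y b) : Red φ (x + y) (a + b) :=
  ⟨A.add_mem x y hx.1 hy.1, by rw [← hx.2, ← hy.2, ← map_add]; rfl⟩

/-- Reduction commutes with negation. -/
protected lemma neg (hx : Red φ x a) : Red φ (-x) (-a) :=
  ⟨A.neg_mem x hx.1, by rw [← hx.2, ← map_neg]; rfl⟩

/-- Reduction commutes with subtraction. -/
protected lemma sub (hx : Red φ x a) (hy : Red φ y b) : Red φ (x - y) (a - b) := by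
  simpa only [sub_eq_add_neg] using hx.add hy.neg

/-- Reduction is multiplicative. -/
protected lemma mul (hx : Red φ x a) (hy : Red φ y b) : Red φ (x * y) (a * b) :=
  ⟨A.mul_mem x y hx.1 hy.1, by rw [← hx.2, ← hy.2, ← map_mul]; rfl⟩

/-- Reduction commutes with powers. -/
protected lemma pow (hx : Red φ x a) (n : ℕ) : Red φ (x ^ n) (a ^ n) := by
  induction n with
  | zero => simpa only [pow_zero] using Red.one φ
  | succ n ih => simpa only [pow_succ] using ih.mul hx

variable (φ)

/-- Reduction of natural numbers. -/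
protected lemma natCast (n : ℕ) : Red φ (n : K) (n : k) :=
  ⟨natCast_mem A n, map_natCast φ n⟩

/-- Reduction of integers. -/
protected lemma intCast (n : ℤ) : Red φ (n : K) (n : k) :=
  ⟨intCast_mem A n, map_intCast φ n⟩

/-- Reduction of numerals. -/
protected lemma ofNat (n : ℕ) [n.AtLeastTwo] :
    Red φ (OfNat.ofNat n : K) (OfNat.ofNat n : k) :=
  Red.natCast φ n

variable {φ} [IsLocalHom φ]

/-- An element reduces to zero exactly when its valuation is less than one. -/
lemma valuation_lt_one_iff (hx : Red φ x a) : A.valuation x < 1 ↔ a = 0 := by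
  obtain ⟨h, rfl⟩ := hx
  rw [← A.valuation_lt_one_iff ⟨x, h⟩, IsLocalRing.mem_maximalIdeal, mem_nonunits_iff]
  constructor
  · intro hu
    by_contra hne
    exact hu (IsUnit.of_map φ _ (isUnit_iff_ne_zero.mpr hne))
  · intro h0 hu
    exact (hu.map φ).ne_zero h0

/-- An element with nonzero reduction is a unit. -/
lemma valuation_eq_one (hx : Red φ x a) (ha : a ≠ 0) : A.valuation x = 1 :=
  le_antisymm ((A.valuation_le_one_iff x).mpr hx.1)
    (not_lt.mp fun h => ha (hx.valuation_lt_one_iff.mp h))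

/-- An element of valuation below one reduces to zero. -/
lemma of_valuation_lt_one (φ : A →+* k) [IsLocalHom φ] (h : A.valuation x < 1) : Red φ x 0 :=
  have hx : x ∈ A := A.mem_of_valuation_le_one x h.le
  (of_mem φ hx).congr_right ((of_mem φ hx).valuation_lt_one_iff.mp h)

omit [IsLocalHom φ] in
/-- An element with nonzero reduction is nonzero. -/
lemma ne_zero (hx : Red φ x a) (ha : a ≠ 0) : x ≠ 0 := by
  rintro rfl
  exact ha (hx.unique (Red.zero φ))

/-- Reduction commutes with inversion of units. -/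
protected lemma inv (hx : Red φ x a) (ha : a ≠ 0) : Red φ x⁻¹ a⁻¹ := by
  have hm : x⁻¹ ∈ A :=
    A.mem_of_valuation_le_one _ (by rw [map_inv₀, hx.valuation_eq_one ha, inv_one])
  obtain ⟨c, hc⟩ := exists_of_mem φ hm
  refine hc.congr_right (eq_inv_of_mul_eq_one_left ?_)
  refine (hc.mul hx).unique ((Red.one φ).congr_left ?_)
  rw [inv_mul_cancel₀ (hx.ne_zero ha)]

/-- Reduction commutes with division by units. -/
protected lemma div (hx : Red φ x a) (hy : Red φ y b) (hb : b ≠ 0) : Red φ (x / y) (a / b) := by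
  simpa only [div_eq_mul_inv] using hx.mul (hy.inv hb)

lemma inv_of_not_mem (φ : A →+* k) [IsLocalHom φ] (hx : x ∉ A) : Red φ x⁻¹ 0 := by
  refine of_valuation_lt_one φ ?_
  have h1 : 1 < A.valuation x := lt_of_not_ge fun h => hx (A.mem_of_valuation_le_one x h)
  rw [map_inv₀]
  exact inv_lt_one_of_one_lt₀ h1

/-- `x ^ 2 + c * x` is integral only if `x` is, for integral `c`. -/
lemma mem_of_monic_quadratic (φ : A →+* k) [IsLocalHom φ] {c r : K} (hc : c ∈ A) (hr : r ∈ A)
    (h : x ^ 2 + c * x = r) : x ∈ A := by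
  by_contra hx
  have hx0 : x ≠ 0 := fun e => hx (e ▸ A.zero_mem)
  have hi := inv_of_not_mem φ hx
  have h1 : (1 : K) = r * x⁻¹ ^ 2 - c * x⁻¹ := by
    rw [← h]
    field_simp
    ring
  refine one_ne_zero (α := k) ((Red.one φ).unique ((((of_mem φ hr).mul (hi.pow 2)).sub
    ((of_mem φ hc).mul hi)).congr_left h1.symm |>.congr_right ?_))
  simp

end Red

/-- The coefficients of `E` are integral at `φ` and reduce to those of `F`. -/
structure CurveRed (φ : A →+* k) (E : WeierstrassCurve K) (F : WeierstrassCurve k) : Prop where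
  a₁ : Red φ E.a₁ F.a₁
  a₂ : Red φ E.a₂ F.a₂
  a₃ : Red φ E.a₃ F.a₃
  a₄ : Red φ E.a₄ F.a₄
  a₆ : Red φ E.a₆ F.a₆

namespace CurveRed

variable {φ : A →+* k} {E : WeierstrassCurve K} {F : WeierstrassCurve k}

/-- The discriminant reduces to the discriminant. -/
lemma Δ (h : CurveRed φ E F) : Red φ E.Δ F.Δ := by
  have hb₂ : Red φ E.b₂ F.b₂ := (h.a₁.pow 2).add ((Red.ofNat φ 4).mul h.a₂)
  have hb₄ : Red φ E.b₄ F.b₄ := ((Red.ofNat φ 2).mul h.a₄).add (h.a₁.mul h.a₃)
  have hb₆ : Red φ E.b₆ F.b₆ := (h.a₃.pow 2).add ((Red.ofNat φ 4).mul h.a₆)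
  have hb₈ : Red φ E.b₈ F.b₈ :=
    ((((h.a₁.pow 2).mul h.a₆).add (((Red.ofNat φ 4).mul h.a₂).mul h.a₆)).sub
      ((h.a₁.mul h.a₃).mul h.a₄)).add (h.a₂.mul (h.a₃.pow 2)) |>.sub (h.a₄.pow 2)
  exact ((((hb₂.pow 2).neg.mul hb₈).sub ((Red.ofNat φ 8).mul (hb₄.pow 3))).sub
    ((Red.ofNat φ 27).mul (hb₆.pow 2))).add (((Red.ofNat φ 9).mul hb₂).mul hb₄ |>.mul hb₆)

/-- Reduction commutes with `negY`. -/
lemma negY (h : CurveRed φ E F) {x y : K} {a b : k} (hx : Red φ x a) (hy : Red φ y b) :
    Red φ (E.toAffine.negY x y) (F.toAffine.negY a b) :=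
  (hy.neg.sub (h.a₁.mul hx)).sub h.a₃

/-- Reduction commutes with `addX`. -/
lemma addX (h : CurveRed φ E F) {x₁ x₂ l : K} {a₁ a₂ m : k} (h₁ : Red φ x₁ a₁)
    (h₂ : Red φ x₂ a₂) (hl : Red φ l m) :
    Red φ (E.toAffine.addX x₁ x₂ l) (F.toAffine.addX a₁ a₂ m) :=
  ((((hl.pow 2).add (h.a₁.mul hl)).sub h.a₂).sub h₁).sub h₂

/-- Reduction commutes with `addY`. -/
lemma addY (h : CurveRed φ E F) {x₁ x₂ y₁ l : K} {a₁ a₂ b₁ m : k} (h₁ : Red φ x₁ a₁)
    (h₂ : Red φ x₂ a₂) (hy : Red φ y₁ b₁) (hl : Red φ l m) :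
    Red φ (E.toAffine.addY x₁ x₂ y₁ l) (F.toAffine.addY a₁ a₂ b₁ m) :=
  h.negY (h.addX h₁ h₂ hl) ((hl.mul ((h.addX h₁ h₂ hl).sub h₁)).add hy)

/-- A point with integral abscissa has integral ordinate. -/
lemma mem_Y [IsLocalHom φ] (h : CurveRed φ E F) {x y : K} (he : E.toAffine.Equation x y)
    (hx : x ∈ A) : y ∈ A := by
  have hx' := Red.of_mem φ hx
  rw [WeierstrassCurve.Affine.equation_iff] at he
  exact Red.mem_of_monic_quadratic φ ((h.a₁.mul hx').add h.a₃).mem
    ((((hx'.pow 3).add (h.a₂.mul (hx'.pow 2))).add (h.a₄.mul hx')).add h.a₆).mem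
    (by linear_combination he)

/-- The Weierstrass equation reduces. -/
lemma equation (h : CurveRed φ E F) {x y : K} {a b : k} (he : E.toAffine.Equation x y)
    (hx : Red φ x a) (hy : Red φ y b) : F.toAffine.Equation a b := by
  rw [WeierstrassCurve.Affine.equation_iff] at he ⊢
  exact ((((hy.pow 2).add ((h.a₁.mul hx).mul hy)).add (h.a₃.mul hy)).congr_left he).unique
    ((((hx.pow 3).add (h.a₂.mul (hx.pow 2))).add (h.a₄.mul hx)).add h.a₆)

/-- Nonsingularity of the reduced point implies nonsingularity of the point. -/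
lemma nonsingular (h : CurveRed φ E F) {x y : K} {a b : k} (he : E.toAffine.Equation x y)
    (hx : Red φ x a) (hy : Red φ y b) (hn : F.toAffine.Nonsingular a b) :
    E.toAffine.Nonsingular x y := by
  rw [WeierstrassCurve.Affine.nonsingular_iff'] at hn ⊢
  refine ⟨he, ?_⟩
  by_contra! hc
  have hX := (h.a₁.mul hy).sub ((((Red.ofNat φ 3).mul (hx.pow 2)).add
    (((Red.ofNat φ 2).mul h.a₂).mul hx)).add h.a₄)
  have hY := (((Red.ofNat φ 2).mul hy).add (h.a₁.mul hx)).add h.a₃
  rcases hn.2 with hne | hne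
  · exact hne (hX.unique ((Red.zero φ).congr_left hc.1.symm))
  · exact hne (hY.unique ((Red.zero φ).congr_left hc.2.symm))

end CurveRed

end Fermat.Agent.ECReduction
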